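import Fermat.Agent.DS.J.Main

/-!
# Program DS (S48), package J, row J6: adaptors for the consumer (K).
-/

set_option autoImplicit false

namespace Fermat.Agent.DS

open Matrix

/-- a quotient of `ℤ̄` by a maximal ideal containing `ℓ` has characteristic `ℓ`. -/
theorem dsja_charP (ℓ : ℕ) (hℓ : ℓ.Prime) (Λ : Ideal DsjZbar) [hΛ : Λ.IsMaximal]
    (h : (ℓ : DsjZbar) ∈ Λ) :
    letI : Field (DsjZbar ⧸ Λ) := Ideal.Quotient.field Λ
    CharP (DsjZbar ⧸ Λ) ℓ := by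
  let _ : Field (DsjZbar ⧸ Λ) := Ideal.Quotient.field Λ
  rw [CharP.charP_iff_prime_eq_zero hℓ]
  have : (Ideal.Quotient.mk Λ) (ℓ : DsjZbar) = 0 := Ideal.Quotient.eq_zero_iff_mem.mpr h
  rwa [map_natCast] at this

theorem dsj_exists_extension (ℓ : ℕ) [Fact ℓ.Prime] (O : Subring ℂ) (hO : ∀ x ∈ O, IsIntegral ℤ x)
    (ψ : O →+* ZMod ℓ) :
    ∃ (k : Type) (_ : Field k) (_ : CharP k ℓ) (φ : DsjZbar →+* k),
      ∀ (x : ℂ) (hx : x ∈ O), φ ⟨x, hO x hx⟩ = ((ψ ⟨x, hx⟩ : ZMod ℓ).cast : k) := by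
  classical
  let incl : O →+* DsjZbar :=
    { toFun := fun x => ⟨x, hO x x.2⟩
      map_one' := rfl
      map_mul' := fun _ _ => rfl
      map_zero' := rfl
      map_add' := fun _ _ => rfl }
  let _ : Algebra O DsjZbar := incl.toAlgebra
  have hinj : Function.Injective (algebraMap O DsjZbar) := by
    intro x y hxy
    apply Subtype.ext
    exact congrArg (fun z : DsjZbar => (z : ℂ)) hxy
  have hint : Algebra.IsIntegral O DsjZbar := by
    refine ⟨fun z => ?_⟩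
    have hz : IsIntegral ℤ z := integralClosure.isIntegral z
    exact hz.tower_top
  have hsurj : Function.Surjective ψ := ZMod.ringHom_surjective ψ
  have hmax : (RingHom.ker ψ).IsMaximal := RingHom.ker_isMaximal_of_surjective ψ hsurj
  obtain ⟨Q, hQmax, hQ⟩ := Ideal.exists_ideal_over_maximal_of_isIntegral (S := DsjZbar)
    (RingHom.ker ψ) (by
      rw [(RingHom.injective_iff_ker_eq_bot _).mp hinj]
      exact bot_le)
  have hℓQ : (ℓ : DsjZbar) ∈ Q := by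
    have h1 : (ℓ : O) ∈ RingHom.ker ψ := by
      rw [RingHom.mem_ker, map_natCast]
      exact CharP.cast_eq_zero (ZMod ℓ) ℓ
    rw [← hQ, Ideal.mem_comap, map_natCast] at h1
    exact h1
  let _ : Field (DsjZbar ⧸ Q) := Ideal.Quotient.field Q
  have hchar : CharP (DsjZbar ⧸ Q) ℓ := dsja_charP ℓ (Fact.out) Q hℓQ
  refine ⟨DsjZbar ⧸ Q, inferInstance, hchar, Ideal.Quotient.mk Q, ?_⟩
  intro x hx
  set y : O := ⟨x, hx⟩ with hy
  -- `y - val (ψ y)` lies in the kernel of `ψ`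
  have h1 : y - ((ψ y).val : O) ∈ RingHom.ker ψ := by
    rw [RingHom.mem_ker, map_sub, map_natCast, ZMod.natCast_zmod_val, sub_self]
  rw [← hQ, Ideal.mem_comap, map_sub, map_natCast] at h1
  have h2 : (Ideal.Quotient.mk Q) (algebraMap O DsjZbar y)
      = (Ideal.Quotient.mk Q) (((ψ y).val : ℕ) : DsjZbar) :=
    Ideal.Quotient.eq.mpr h1
  rw [map_natCast, ZMod.natCast_val] at h2
  exact h2

/-- `dsj_lift` for `ρbar` over the prime field. -/
theorem dsj_lift_zmod {G : Type*} [Group G] [Finite G] (ℓ : ℕ) [Fact ℓ.Prime] {k : Type*} [Field k]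
    [CharP k ℓ] (φ : DsjZbar →+* k) (hG : Nat.card G < ℓ) (h2 : 2 < ℓ)
    (ρbar : G →* GL (Fin 2) (ZMod ℓ)) :
    ∃ ρ : G →* GL (Fin 2) ℂ,
      (∀ g, ∃ t d : DsjZbar, (t : ℂ) = (ρ g).1.trace ∧ (d : ℂ) = (ρ g).1.det ∧
        φ t = (((ρbar g).1.trace : ZMod ℓ).cast : k) ∧
        φ d = (((ρbar g).1.det : ZMod ℓ).cast : k)) ∧
      (∀ g, ρ g = 1 ↔ ρbar g = 1) := by
  let c : ZMod ℓ →+* k := ZMod.castHom (dvd_refl ℓ) k
  have hc : Function.Injective c := c.injective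
  let ρbar' : G →* GL (Fin 2) k := (Matrix.GeneralLinearGroup.map c).comp ρbar
  obtain ⟨ρ, h1, h2'⟩ := dsj_lift φ ℓ Fact.out hG h2 ρbar'
  have htr : ∀ g, (ρbar' g).1.trace = c (ρbar g).1.trace := by
    intro g
    rw [AddMonoidHom.map_trace]
    rfl
  have hdet : ∀ g, (ρbar' g).1.det = c (ρbar g).1.det := by
    intro g
    rw [RingHom.map_det]
    rfl
  have hker : ∀ g, ρbar' g = 1 ↔ ρbar g = 1 := by
    intro g
    constructor
    · intro h
      apply Units.ext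
      have h' : ((ρbar g).1).map c = (1 : Matrix (Fin 2) (Fin 2) (ZMod ℓ)).map c := by
        have := congrArg Units.val h
        rw [Matrix.map_one _ (map_zero c) (map_one c)]
        exact this
      exact Matrix.map_injective hc h'
    · intro h
      show (Matrix.GeneralLinearGroup.map c) (ρbar g) = 1
      rw [h, map_one]
  refine ⟨ρ, fun g => ?_, fun g => (h2' g).trans (hker g)⟩
  obtain ⟨t, d, ht, hd, hφt, hφd⟩ := h1 g
  exact ⟨t, d, ht, hd, by rw [hφt, htr]; rfl, by rw [hφd, hdet]; rfl⟩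

/-- **the shape (K) consumes** (helper17's `DsLift`). -/
theorem dsj_lift_galois (ℓ : ℕ) [Fact ℓ.Prime] (h2 : 2 < ℓ) (Λ : Ideal DsjZbar) (hΛ : Λ.IsMaximal)
    (hℓ : (ℓ : DsjZbar) ∈ Λ) {Γ : Type*} [Group Γ] (ρb : Γ →* GL (Fin 2) (ZMod ℓ))
    (hcard : Nat.card ρb.range < ℓ) :
    ∃ ρ : Γ →* GL (Fin 2) ℂ, ρ.ker = ρb.ker ∧ ∀ σ : Γ,
      (∃ z : DsjZbar, z ∈ Λ ∧ (z : ℂ) = (ρ σ).1.trace - (((ρb σ).1.trace).val : ℂ)) ∧
      (∃ z : DsjZbar, z ∈ Λ ∧ (z : ℂ) = (ρ σ).1.det - (((ρb σ).1.det).val : ℂ)) := by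
  let _ : Field (DsjZbar ⧸ Λ) := Ideal.Quotient.field Λ
  have hchar : CharP (DsjZbar ⧸ Λ) ℓ := dsja_charP ℓ Fact.out Λ hℓ
  obtain ⟨ρG, h1, hk⟩ := dsj_lift_zmod (G := ρb.range) ℓ (Ideal.Quotient.mk Λ) hcard h2
    ρb.range.subtype
  refine ⟨ρG.comp ρb.rangeRestrict, ?_, fun σ => ?_⟩
  · ext σ
    rw [MonoidHom.mem_ker, MonoidHom.mem_ker, MonoidHom.comp_apply, hk]
    constructor
    · intro h
      exact h
    · intro h
      exact h
  · obtain ⟨t, d, ht, hd, hφt, hφd⟩ := h1 (ρb.rangeRestrict σ)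
    have key : ∀ (x : DsjZbar) (a : ZMod ℓ),
        (Ideal.Quotient.mk Λ) x = ((a : ZMod ℓ).cast : DsjZbar ⧸ Λ) →
        ∃ z : DsjZbar, z ∈ Λ ∧ (z : ℂ) = (x : ℂ) - ((a.val : ℕ) : ℂ) := by
      intro x a hx
      refine ⟨x - ((a.val : ℕ) : DsjZbar), ?_, ?_⟩
      · rw [← Ideal.Quotient.eq_zero_iff_mem, map_sub, map_natCast, hx, ZMod.natCast_val,
          sub_self]
      · push_cast
        rfl
    constructor
    · obtain ⟨z, hz, hz'⟩ := key t _ hφt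
      exact ⟨z, hz, by rw [hz', ht]; rfl⟩
    · obtain ⟨z, hz, hz'⟩ := key d _ hφd
      exact ⟨z, hz, by rw [hz', hd]; rfl⟩

end Fermat.Agent.DS
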