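import Mathlib

/-!
# Program DS (S48), package J, row J3: modulo `ℓ > |G|` the reduced irreducibles are a complete set
of simple representations (statement over `k` only).
-/

set_option autoImplicit false
set_option linter.unusedSectionVars false

namespace Fermat.Agent.DS

open Matrix Module

section Setup

variable {k : Type*} [Field k] {G : Type*} [Group G]

/-- the representation on `k^n` attached to a matrix representation. -/
def dsjcRep {n : ℕ} (α : G →* GL (Fin n) k) : Representation k G (Fin n → k) where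
  toFun g := Matrix.toLin' (α g).1
  map_one' := by
    rw [map_one, Units.val_one, Matrix.toLin'_one]
    rfl
  map_mul' g h := by
    rw [map_mul, Units.val_mul, Matrix.toLin'_mul]
    rfl

theorem dsjcRep_apply {n : ℕ} (α : G →* GL (Fin n) k) (g : G) (x : Fin n → k) :
    dsjcRep α g x = (α g).1 *ᵥ x := rfl

theorem dsjc_character {n : ℕ} (α : G →* GL (Fin n) k) (g : G) :
    (dsjcRep α).character g = (α g).1.trace := by
  simp [Representation.character, dsjcRep]

variable [Fintype G]

/-- scalar product of characters = dimension of the space of intertwiners. -/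
theorem dsjc_pairing [Invertible (Nat.card G : k)] {a b : ℕ} (α : G →* GL (Fin a) k)
    (β : G →* GL (Fin b) k) :
    (Nat.card G : k)⁻¹ * ∑ g : G, (β g).1.trace * (α g⁻¹).1.trace
      = (finrank k (Representation.IntertwiningMap (dsjcRep α) (dsjcRep β)) : k) := by
  rw [← Representation.card_inv_mul_sum_char_mul_char_eq_finrank]
  simp only [dsjc_character]

theorem dsjc_finrank_le {a b : ℕ} (α : G →* GL (Fin a) k) (β : G →* GL (Fin b) k) :
    finrank k (Representation.IntertwiningMap (dsjcRep α) (dsjcRep β)) ≤ a * b := by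
  rw [← (Representation.invariantsEquivIntertwiningMap (dsjcRep α) (dsjcRep β)).finrank_eq]
  refine (Submodule.finrank_le _).trans ?_
  rw [Module.finrank_linearMap, Module.finrank_fin_fun, Module.finrank_fin_fun]

end Setup

section Simple

variable {k : Type*} [Field k] {G : Type*} [Group G] [Fintype G]

theorem dsjcRep_mul_inv {a : ℕ} (α : G →* GL (Fin a) k) (g : G) (x : Fin a → k) :
    dsjcRep α g (dsjcRep α g⁻¹ x) = x := by
  rw [dsjcRep_apply, dsjcRep_apply, Matrix.mulVec_mulVec, ← Units.val_mul, ← map_mul,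
    mul_inv_cancel, map_one, Units.val_one, Matrix.one_mulVec]

theorem dsjcRep_mul {a : ℕ} (α : G →* GL (Fin a) k) (g h : G) (x : Fin a → k) :
    dsjcRep α g (dsjcRep α h x) = dsjcRep α (g * h) x := by
  rw [dsjcRep_apply, dsjcRep_apply, dsjcRep_apply, Matrix.mulVec_mulVec, ← Units.val_mul,
    ← map_mul]

/-- averaging a linear endomorphism into an equivariant one. -/
noncomputable def dsjcAvg {a : ℕ} (α : G →* GL (Fin a) k) (p : (Fin a → k) →ₗ[k] (Fin a → k)) :
    (Fin a → k) →ₗ[k] (Fin a → k) :=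
  (Nat.card G : k)⁻¹ • ∑ g : G, (dsjcRep α g) ∘ₗ p ∘ₗ (dsjcRep α g⁻¹)

theorem dsjcAvg_apply {a : ℕ} (α : G →* GL (Fin a) k) (p : (Fin a → k) →ₗ[k] (Fin a → k))
    (x : Fin a → k) :
    dsjcAvg α p x = (Nat.card G : k)⁻¹ • ∑ g : G, dsjcRep α g (p (dsjcRep α g⁻¹ x)) := by
  simp [dsjcAvg, LinearMap.sum_apply]

theorem dsjcAvg_comm {a : ℕ} (α : G →* GL (Fin a) k) (p : (Fin a → k) →ₗ[k] (Fin a → k))
    (h : G) (x : Fin a → k) :
    dsjcAvg α p (dsjcRep α h x) = dsjcRep α h (dsjcAvg α p x) := by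
  rw [dsjcAvg_apply, dsjcAvg_apply, map_smul, map_sum]
  congr 1
  refine (Fintype.sum_equiv (Equiv.mulLeft h) _ _ fun g => ?_).symm
  simp only [Equiv.coe_mulLeft, dsjcRep_mul, _root_.mul_inv_rev, inv_mul_cancel_right]

theorem dsjcAvg_mem {a : ℕ} (α : G →* GL (Fin a) k) (p : (Fin a → k) →ₗ[k] (Fin a → k))
    (U : Submodule k (Fin a → k)) (hU : ∀ g, ∀ u ∈ U, dsjcRep α g u ∈ U) (hp : ∀ x, p x ∈ U)
    (x : Fin a → k) : dsjcAvg α p x ∈ U := by
  rw [dsjcAvg_apply]
  exact U.smul_mem _ (U.sum_mem fun g _ => hU g _ (hp _))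

theorem dsjcAvg_fix [Invertible (Nat.card G : k)] {a : ℕ} (α : G →* GL (Fin a) k)
    (p : (Fin a → k) →ₗ[k] (Fin a → k))
    (U : Submodule k (Fin a → k)) (hU : ∀ g, ∀ u ∈ U, dsjcRep α g u ∈ U)
    (hp : ∀ u ∈ U, p u = u) (u : Fin a → k) (hu : u ∈ U) : dsjcAvg α p u = u := by
  rw [dsjcAvg_apply]
  have h1 : ∀ g : G, dsjcRep α g (p (dsjcRep α g⁻¹ u)) = u := fun g => by
    rw [hp _ (hU _ _ hu), dsjcRep_mul_inv]
  simp only [h1, Finset.sum_const, Finset.card_univ, ← Nat.card_eq_fintype_card]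
  rw [← Nat.cast_smul_eq_nsmul k, smul_smul, inv_mul_cancel_of_invertible, one_smul]

/-- a nonzero intertwiner out of a representation with `End_G = k` is injective (Maschke). -/
theorem dsjc_injective_of_ne_zero [Invertible (Nat.card G : k)] {a b : ℕ}
    (α : G →* GL (Fin a) k) (β : G →* GL (Fin b) k)
    (hend : finrank k (Representation.IntertwiningMap (dsjcRep α) (dsjcRep α)) = 1)
    (f : Representation.IntertwiningMap (dsjcRep α) (dsjcRep β)) (hf : f ≠ 0) :
    Function.Injective f := by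
  classical
  set U : Submodule k (Fin a → k) := LinearMap.ker f.toLinearMap with hUdef
  have hU : ∀ g, ∀ u ∈ U, dsjcRep α g u ∈ U := by
    intro g u hu
    rw [hUdef, LinearMap.mem_ker] at hu ⊢
    rw [Representation.IntertwiningMap.toLinearMap_apply] at hu ⊢
    rw [f.isIntertwining, hu, map_zero]
  obtain ⟨U', hU'⟩ := Submodule.exists_isCompl U
  set p : (Fin a → k) →ₗ[k] (Fin a → k) := U.subtype ∘ₗ Submodule.projectionOnto U U' hU'
    with hpdef
  have hp1 : ∀ x, p x ∈ U := fun x => by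
    rw [hpdef]; exact Submodule.coe_mem _
  have hp2 : ∀ u ∈ U, p u = u := fun u hu => by
    rw [hpdef, LinearMap.comp_apply]
    rw [Submodule.projectionOnto_apply_of_mem_left hU' hu]; rfl
  let πI : Representation.IntertwiningMap (dsjcRep α) (dsjcRep α) :=
    (dsjcAvg α p).intertwiningMap_of_isIntertwiningMap _ _ fun g v => dsjcAvg_comm α p g v
  have hπ : ∀ x, πI x = dsjcAvg α p x := fun x => rfl
  by_contra hinj
  have hUbot : U ≠ ⊥ := by
    intro h
    exact hinj (LinearMap.ker_eq_bot.mp h)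
  obtain ⟨u, hu, hu0⟩ := Submodule.exists_mem_ne_zero_of_ne_bot hUbot
  have hid : Representation.IntertwiningMap.id (dsjcRep α) ≠ 0 := by
    intro h
    apply hu0
    have := congrArg (fun φ : Representation.IntertwiningMap (dsjcRep α) (dsjcRep α) => φ u) h
    simpa using this
  obtain ⟨c, hc⟩ := (finrank_eq_one_iff_of_nonzero' _ hid).mp hend πI
  have hcx : ∀ x, dsjcAvg α p x = c • x := fun x => by
    rw [← hπ, ← hc]; rfl
  have hc1 : c = 1 := by
    have h1 := hcx u
    rw [dsjcAvg_fix α p U hU hp2 u hu] at h1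
    have h2 : (c - 1) • u = 0 := by rw [sub_smul, one_smul, ← h1, sub_self]
    rcases smul_eq_zero.mp h2 with h | h
    · exact sub_eq_zero.mp h
    · exact absurd h hu0
  apply hf
  apply Representation.IntertwiningMap.ext
  apply LinearMap.ext
  intro x
  have hx : x ∈ U := by
    have := dsjcAvg_mem α p U hU hp1 x
    rwa [hcx, hc1, one_smul] at this
  rw [hUdef, LinearMap.mem_ker] at hx
  simpa using hx

end Simple

section Main

open Representation

variable {k : Type*} [Field k] {G : Type*} [Group G] [Fintype G]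

theorem dsjc_natCast_ne_zero (ℓ : ℕ) [CharP k ℓ] {n : ℕ} (h0 : 0 < n) (hn : n < ℓ) :
    (n : k) ≠ 0 := by
  rw [Ne, CharP.cast_eq_zero_iff k ℓ]
  intro h
  have := Nat.le_of_dvd h0 h
  omega

theorem dsjc_end_one [DecidableEq G] (ℓ : ℕ) [CharP k ℓ] (hG : Nat.card G < ℓ)
    [Invertible (Nat.card G : k)] {r : ℕ}
    {d : Fin r → ℕ} (σ : ∀ i, G →* GL (Fin (d i)) k)
    (hsum : ∑ i, d i * d i = Nat.card G)
    (horth : ∀ i j, (Nat.card G : k)⁻¹ * ∑ g : G, (σ i g).1.trace * (σ j g⁻¹).1.trace
      = if i = j then 1 else 0) (i : Fin r) :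
    finrank k (IntertwiningMap (dsjcRep (σ i)) (dsjcRep (σ i))) = 1 := by
  have h1 := dsjc_pairing (σ i) (σ i)
  rw [horth i i, if_pos rfl] at h1
  have hle := dsjc_finrank_le (σ i) (σ i)
  have hdd : d i * d i ≤ Nat.card G := by
    rw [← hsum]
    exact Finset.single_le_sum (f := fun i => d i * d i) (fun _ _ => Nat.zero_le _)
      (Finset.mem_univ i)
  have hpos : 0 < Nat.card G := Nat.card_pos
  refine CharP.natCast_injOn_Iio k ℓ (Set.mem_Iio.mpr (by omega)) (Set.mem_Iio.mpr (by omega)) ?_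
  rw [← h1, Nat.cast_one]

theorem dsjc_exists_hom [DecidableEq G] [Invertible (Nat.card G : k)] {r : ℕ}
    {d : Fin r → ℕ} (σ : ∀ i, G →* GL (Fin (d i)) k)
    (hreg : ∀ g : G, ∑ i, (d i : k) * (σ i g).1.trace = if g = 1 then (Nat.card G : k) else 0)
    {n : ℕ} (hn : (n : k) ≠ 0) (β : G →* GL (Fin n) k) :
    ∃ i, ∃ f : IntertwiningMap (dsjcRep (σ i)) (dsjcRep β), f ≠ 0 := by
  by_contra hcon
  push Not at hcon
  have hzero : ∀ i, finrank k (IntertwiningMap (dsjcRep (σ i)) (dsjcRep β)) = 0 := by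
    intro i
    have : Subsingleton (IntertwiningMap (dsjcRep (σ i)) (dsjcRep β)) :=
      ⟨fun f g => by rw [hcon i f, hcon i g]⟩
    exact finrank_zero_of_subsingleton
  have hcard : (Nat.card G : k) ≠ 0 := Invertible.ne_zero _
  have h1 : ∀ g : G, ∑ i, (d i : k) * ((β g).1.trace * (σ i g⁻¹).1.trace)
      = (β g).1.trace * (if g = 1 then (Nat.card G : k) else 0) := by
    intro g
    have := hreg g⁻¹
    simp only [inv_eq_one] at this
    rw [← this, Finset.mul_sum]
    refine Finset.sum_congr rfl fun i _ => by ring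
  have key : (n : k) = ∑ i, (d i : k) *
      ((Nat.card G : k)⁻¹ * ∑ g, (β g).1.trace * (σ i g⁻¹).1.trace) := by
    calc (n : k) = (Nat.card G : k)⁻¹ * ((β 1).1.trace * (Nat.card G : k)) := by
            rw [map_one, Units.val_one, Matrix.trace_one, Fintype.card_fin]
            field_simp
      _ = (Nat.card G : k)⁻¹ *
            ∑ g, (β g).1.trace * (if g = 1 then (Nat.card G : k) else 0) := by
            rw [Finset.sum_eq_single (1 : G)]
            · rw [if_pos rfl]
            · intro g _ hg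
              rw [if_neg hg, mul_zero]
            · intro h
              exact absurd (Finset.mem_univ _) h
      _ = (Nat.card G : k)⁻¹ *
            ∑ g, ∑ i, (d i : k) * ((β g).1.trace * (σ i g⁻¹).1.trace) := by
            simp_rw [h1]
      _ = _ := by
            rw [Finset.sum_comm, Finset.mul_sum]
            refine Finset.sum_congr rfl fun i _ => ?_
            rw [Finset.mul_sum, Finset.mul_sum, Finset.mul_sum]
            refine Finset.sum_congr rfl fun g _ => by ring
  apply hn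
  rw [key]
  refine Finset.sum_eq_zero fun i _ => ?_
  rw [dsjc_pairing, hzero i, Nat.cast_zero, mul_zero]

omit [Fintype G] in
theorem dsjc_case_two {n : ℕ} (hn : n = 2) (α : G →* GL (Fin n) k) (τ : G →* GL (Fin 2) k)
    (f : IntertwiningMap (dsjcRep α) (dsjcRep τ)) (hf : Function.Injective f) :
    ∀ g, (τ g).1.trace = (α g).1.trace ∧ (τ g).1.det = (α g).1.det := by
  subst hn
  intro g
  let e : (Fin 2 → k) ≃ₗ[k] (Fin 2 → k) := LinearEquiv.ofInjectiveEndo f.toLinearMap hf
  have he : ∀ x, e x = f x := fun x => rfl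
  have hconj : Matrix.toLin' (τ g).1 = e.conj (Matrix.toLin' (α g).1) := by
    apply LinearMap.ext
    intro w
    rw [LinearEquiv.conj_apply_apply]
    have h1 := IntertwiningMap.isIntertwining (dsjcRep α) (dsjcRep τ) f g (e.symm w)
    rw [he]
    change f ((dsjcRep α g) (e.symm w)) = _ at h1
    erw [h1]
    rw [← he, LinearEquiv.apply_symm_apply]
    rfl
  constructor
  · rw [← Matrix.trace_toLin'_eq, hconj, LinearMap.trace_conj', Matrix.trace_toLin'_eq]
  · rw [← LinearMap.det_toLin', hconj, LinearEquiv.conj_apply, LinearMap.comp_assoc]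
    rw [LinearMap.det_conj, LinearMap.det_toLin']

omit [Fintype G] in
theorem dsjc_case_one {n : ℕ} (hn : n = 1) (α : G →* GL (Fin n) k) {m : ℕ}
    (τ : G →* GL (Fin m) k)
    (f : IntertwiningMap (dsjcRep α) (dsjcRep τ)) (hf : Function.Injective f) :
    ∃ v : Fin m → k, v ≠ 0 ∧ ∀ g, (τ g).1 *ᵥ v = (α g).1.trace • v := by
  subst hn
  refine ⟨f (fun _ => 1), ?_, ?_⟩
  · intro h
    have := hf (h.trans (map_zero f).symm)
    exact one_ne_zero (congrFun this 0)
  · intro g
    have h1 := IntertwiningMap.isIntertwining (dsjcRep α) (dsjcRep τ) f g (fun _ => 1)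
    have hv : dsjcRep α g (fun _ => (1 : k)) = (α g).1.trace • (fun _ => (1 : k)) := by
      ext i
      rw [dsjcRep_apply]
      simp [Matrix.mulVec, dotProduct, Matrix.trace_fin_one, Subsingleton.elim i 0]
    rw [hv, map_smul] at h1
    exact h1.symm

omit [Fintype G] in
theorem dsjc_det_eq_trace {n : ℕ} (hn : n = 1) (α : G →* GL (Fin n) k) (g : G) :
    (α g).1.det = (α g).1.trace := by
  subst hn
  rw [Matrix.det_fin_one, Matrix.trace_fin_one]

theorem dsjc_eigen (M : Matrix (Fin 2) (Fin 2) k) (v : Fin 2 → k) (hv : v ≠ 0) (a : k)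
    (h : M *ᵥ v = a • v) : a * a - M.trace * a + M.det = 0 := by
  have e0 := congrFun h 0
  have e1 := congrFun h 1
  simp only [Matrix.mulVec, dotProduct, Fin.sum_univ_two, Pi.smul_apply, smul_eq_mul] at e0 e1
  rw [Matrix.trace_fin_two, Matrix.det_fin_two]
  have hx : (a * a - (M 0 0 + M 1 1) * a + (M 0 0 * M 1 1 - M 0 1 * M 1 0)) * v 0 = 0 := by
    linear_combination (-(a - M 1 1)) * e0 - M 0 1 * e1
  have hy : (a * a - (M 0 0 + M 1 1) * a + (M 0 0 * M 1 1 - M 0 1 * M 1 0)) * v 1 = 0 := by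
    linear_combination (-(a - M 0 0)) * e1 - M 1 0 * e0
  by_contra hne
  apply hv
  ext i
  fin_cases i
  · exact (mul_eq_zero.mp hx).resolve_left hne
  · exact (mul_eq_zero.mp hy).resolve_left hne

/-- a one-dimensional matrix representation from a character. -/
def dsjcChar (χ : G →* kˣ) : G →* GL (Fin 1) k :=
  (Units.map (Matrix.scalar (Fin 1)).toMonoidHom).comp χ

omit [Fintype G] in
theorem dsjcChar_mulVec (χ : G →* kˣ) (g : G) (w : Fin 1 → k) :
    (dsjcChar χ g).1 *ᵥ w = (χ g : k) • w := by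
  ext i
  simp [dsjcChar, Matrix.mulVec, dotProduct, Matrix.scalar_apply, Matrix.diagonal_apply,
    Subsingleton.elim i 0]

/-- **J3**: modulo `ℓ > |G|` the reduced irreducibles are a complete set of simple
representations (dimension-two case). -/
theorem dsj_complete {k : Type*} [Field k] {G : Type*} [Group G] [Fintype G] [DecidableEq G]
    (ℓ : ℕ) [CharP k ℓ] (hG : Nat.card G < ℓ) (h2 : 2 < ℓ) {r : ℕ} {d : Fin r → ℕ}
    (σ : ∀ i, G →* GL (Fin (d i)) k) (hd : ∀ i, 0 < d i) (hsum : ∑ i, d i * d i = Nat.card G)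
    (horth : ∀ i j, (Nat.card G : k)⁻¹ * ∑ g : G, (σ i g).1.trace * (σ j g⁻¹).1.trace
      = if i = j then 1 else 0)
    (hreg : ∀ g : G, ∑ i, (d i : k) * (σ i g).1.trace = if g = 1 then (Nat.card G : k) else 0)
    (τ : G →* GL (Fin 2) k) :
    (∃ i, d i = 2 ∧ ∀ g, (τ g).1.trace = (σ i g).1.trace ∧ (τ g).1.det = (σ i g).1.det)
    ∨ (∃ i j, d i = 1 ∧ d j = 1 ∧ ∀ g, (τ g).1.trace = (σ i g).1.trace + (σ j g).1.trace ∧
        (τ g).1.det = (σ i g).1.trace * (σ j g).1.trace) := by
  classical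
  have hcard : (Nat.card G : k) ≠ 0 := dsjc_natCast_ne_zero ℓ Nat.card_pos hG
  have : Invertible (Nat.card G : k) := invertibleOfNonzero hcard
  have hend := dsjc_end_one ℓ hG σ hsum horth
  have h2k : ((2 : ℕ) : k) ≠ 0 := dsjc_natCast_ne_zero ℓ (by norm_num) h2
  have h1k : ((1 : ℕ) : k) ≠ 0 := by rw [Nat.cast_one]; exact one_ne_zero
  obtain ⟨i, f, hf⟩ := dsjc_exists_hom σ hreg h2k τ
  have hfinj := dsjc_injective_of_ne_zero (σ i) τ (hend i) f hf
  have hdi : d i ≤ 2 := by
    have := LinearMap.finrank_le_finrank_of_injective (f := f.toLinearMap) hfinj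
    simpa using this
  have hdi0 := hd i
  rcases (by omega : d i = 2 ∨ d i = 1) with h | h
  · left
    exact ⟨i, h, dsjc_case_two h (σ i) τ f hfinj⟩
  · right
    obtain ⟨v, hv0, hv⟩ := dsjc_case_one h (σ i) τ f hfinj
    have hdet : ∀ g, (σ i g).1.det = (σ i g).1.trace := dsjc_det_eq_trace h (σ i)
    let χ : G →* kˣ := (Matrix.GeneralLinearGroup.det.comp τ) /
      (Matrix.GeneralLinearGroup.det.comp (σ i))
    have hχ : ∀ g, (χ g : k) = (τ g).1.det / (σ i g).1.trace := by
      intro g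
      rw [← hdet]
      simp [χ, Units.val_div_eq_div_val]
    obtain ⟨j, f', hf'⟩ := dsjc_exists_hom σ hreg h1k (dsjcChar χ)
    have hf'inj := dsjc_injective_of_ne_zero (σ j) (dsjcChar χ) (hend j) f' hf'
    have hdj : d j = 1 := by
      have := LinearMap.finrank_le_finrank_of_injective (f := f'.toLinearMap) hf'inj
      have h0 := hd j
      simp at this
      omega
    obtain ⟨w, hw0, hw⟩ := dsjc_case_one hdj (σ j) (dsjcChar χ) f' hf'inj
    have hχj : ∀ g, (χ g : k) = (σ j g).1.trace := by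
      intro g
      have h1 := hw g
      rw [dsjcChar_mulVec] at h1
      have h3 : ((χ g : k) - (σ j g).1.trace) • w = 0 := by rw [sub_smul, h1, sub_self]
      rcases smul_eq_zero.mp h3 with h4 | h4
      · exact sub_eq_zero.mp h4
      · exact absurd h4 hw0
    refine ⟨i, j, h, hdj, fun g => ?_⟩
    have heig := dsjc_eigen (τ g).1 v hv0 _ (hv g)
    have ha0 : (σ i g).1.trace ≠ 0 := by
      rw [← hdet]
      exact ((Matrix.isUnit_iff_isUnit_det _).mp (σ i g).isUnit).ne_zero
    constructor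
    · rw [← hχj, hχ]
      field_simp
      linear_combination (-1 : k) * heig
    · rw [← hχj, hχ]
      field_simp

end Main

end Fermat.Agent.DS
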