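import Mathlib

/-!
# Program DS (S48, Deligne–Serre), package J (coprime lifting): definitions

* `DsjZbar`        : the ring `ℤ̄ ⊆ ℂ` of all algebraic integers;
* `dsjLoc 𝔪`       : `ℤ̄` localised at a prime ideal `𝔪`, as a subring of `ℂ`;
* `dsjLocHom φ`    : the extension of `φ : ℤ̄ →+* k` (`k` a field) to `dsjLoc (ker φ)`.
-/

set_option autoImplicit false

namespace Fermat.Agent.DS

/-- the ring of all algebraic integers of `ℂ`. -/
abbrev DsjZbar : Type := integralClosure ℤ ℂ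

/-- `ℤ̄` localised at the prime `𝔪`, inside `ℂ`. -/
def dsjLoc (𝔪 : Ideal DsjZbar) [h𝔪 : 𝔪.IsPrime] : Subring ℂ where
  carrier := {x | ∃ a s : DsjZbar, s ∉ 𝔪 ∧ x * (s : ℂ) = (a : ℂ)}
  mul_mem' := by
    rintro x y ⟨a, s, hs, hx⟩ ⟨b, t, ht, hy⟩
    refine ⟨a * b, s * t, fun h => (h𝔪.mem_or_mem h).elim hs ht, ?_⟩
    push_cast
    rw [← hx, ← hy]
    ring
  one_mem' := ⟨1, 1, fun h => h𝔪.ne_top ((Ideal.eq_top_iff_one _).mpr h), by simp⟩
  add_mem' := by
    rintro x y ⟨a, s, hs, hx⟩ ⟨b, t, ht, hy⟩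
    refine ⟨a * t + b * s, s * t, fun h => (h𝔪.mem_or_mem h).elim hs ht, ?_⟩
    push_cast
    rw [← hx, ← hy]
    ring
  zero_mem' := ⟨0, 1, fun h => h𝔪.ne_top ((Ideal.eq_top_iff_one _).mpr h), by simp⟩
  neg_mem' := by
    rintro x ⟨a, s, hs, hx⟩
    refine ⟨-a, s, hs, ?_⟩
    push_cast
    rw [← hx]
    ring

theorem dsj_mem_loc (𝔪 : Ideal DsjZbar) [𝔪.IsPrime] (a : DsjZbar) : (a : ℂ) ∈ dsjLoc 𝔪 :=
  ⟨a, 1, fun h => (‹𝔪.IsPrime›).ne_top ((Ideal.eq_top_iff_one _).mpr h), by simp⟩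

section Hom

variable {k : Type*} [Field k] (φ : DsjZbar →+* k)

instance dsj_ker_isPrime : (RingHom.ker φ).IsPrime := RingHom.ker_isPrime φ

/-- numerator/denominator data of an element of the localisation. -/
theorem dsj_loc_spec (x : dsjLoc (RingHom.ker φ)) :
    ∃ a s : DsjZbar, φ s ≠ 0 ∧ (x : ℂ) * (s : ℂ) = (a : ℂ) := by
  obtain ⟨a, s, hs, hx⟩ := x.2
  exact ⟨a, s, fun h => hs ((RingHom.mem_ker).mpr h), hx⟩

/-- the value `φ a / φ s` does not depend on the fraction. -/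
theorem dsj_loc_wd {x : ℂ} {a s a' s' : DsjZbar} (hs : φ s ≠ 0) (hs' : φ s' ≠ 0)
    (h : x * (s : ℂ) = (a : ℂ)) (h' : x * (s' : ℂ) = (a' : ℂ)) : φ a / φ s = φ a' / φ s' := by
  have e : a * s' = a' * s := by
    apply Subtype.ext
    push_cast
    rw [← h, ← h']
    ring
  rw [div_eq_div_iff hs hs', ← map_mul, ← map_mul, e]

/-- the extension of `φ` to the localisation at its kernel. -/
noncomputable def dsjLocHom : dsjLoc (RingHom.ker φ) →+* k where
  toFun x := φ (dsj_loc_spec φ x).choose / φ (dsj_loc_spec φ x).choose_spec.choose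
  map_one' := by
    have h := (dsj_loc_spec φ 1).choose_spec.choose_spec
    rw [dsj_loc_wd φ h.1 (s' := 1) (a' := 1) (by rw [map_one]; exact one_ne_zero) h.2 (by simp),
      map_one, div_one]
  map_mul' x y := by
    have hx := (dsj_loc_spec φ x).choose_spec.choose_spec
    have hy := (dsj_loc_spec φ y).choose_spec.choose_spec
    have hxy := (dsj_loc_spec φ (x * y)).choose_spec.choose_spec
    rw [div_mul_div_comm, ← map_mul, ← map_mul]
    refine dsj_loc_wd φ hxy.1 (by rw [map_mul]; exact mul_ne_zero hx.1 hy.1) hxy.2 ?_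
    push_cast
    linear_combination ((y : ℂ) * ((dsj_loc_spec φ y).choose_spec.choose : ℂ)) * hx.2
      + ((dsj_loc_spec φ x).choose : ℂ) * hy.2
  map_zero' := by
    have h := (dsj_loc_spec φ 0).choose_spec.choose_spec
    rw [dsj_loc_wd φ h.1 (s' := 1) (a' := 0) (by rw [map_one]; exact one_ne_zero) h.2 (by simp),
      map_zero, zero_div]
  map_add' x y := by
    have hx := (dsj_loc_spec φ x).choose_spec.choose_spec
    have hy := (dsj_loc_spec φ y).choose_spec.choose_spec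
    have hxy := (dsj_loc_spec φ (x + y)).choose_spec.choose_spec
    rw [div_add_div _ _ hx.1 hy.1, ← map_mul, ← map_mul, ← map_mul, ← map_add]
    refine dsj_loc_wd φ hxy.1 (by rw [map_mul]; exact mul_ne_zero hx.1 hy.1) hxy.2 ?_
    push_cast
    linear_combination ((dsj_loc_spec φ y).choose_spec.choose : ℂ) * hx.2
      + ((dsj_loc_spec φ x).choose_spec.choose : ℂ) * hy.2

theorem dsjLocHom_apply {x : dsjLoc (RingHom.ker φ)} {a s : DsjZbar} (hs : φ s ≠ 0)
    (h : (x : ℂ) * (s : ℂ) = (a : ℂ)) : dsjLocHom φ x = φ a / φ s :=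
  dsj_loc_wd φ (dsj_loc_spec φ x).choose_spec.choose_spec.1 hs
    (dsj_loc_spec φ x).choose_spec.choose_spec.2 h

theorem dsjLocHom_coe (a : DsjZbar) :
    dsjLocHom φ ⟨(a : ℂ), dsj_mem_loc _ a⟩ = φ a := by
  rw [dsjLocHom_apply φ (s := 1) (a := a) (by rw [map_one]; exact one_ne_zero) (by simp),
    map_one, div_one]

end Hom

end Fermat.Agent.DS
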