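import Fermat.Agent.DS.J.Defs

/-!
# Program DS (S48), package J, row J2a: finitely many algebraic numbers lie in a number field `K`
which is the fraction field of the discrete valuation ring `(𝓞 K)_𝔭`, `𝔭 = 𝔪 ∩ 𝓞 K`, and this DVR
maps into `dsjLoc 𝔪`.
-/

set_option autoImplicit false

namespace Fermat.Agent.DS

open NumberField

section

variable (K : IntermediateField ℚ ℂ)

/-- the integers of a subfield of `ℂ` are algebraic integers. -/
theorem dsjd_isIntegral (x : 𝓞 K) : IsIntegral ℤ (((x : K) : ℂ)) := by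
  have h := NumberField.RingOfIntegers.isIntegral_coe x
  exact h.map (K.val.restrictScalars ℤ)

/-- the inclusion `𝓞 K → ℤ̄`. -/
noncomputable def dsjdIncl : 𝓞 K →+* DsjZbar where
  toFun x := ⟨((x : K) : ℂ), dsjd_isIntegral K x⟩
  map_one' := by
    apply Subtype.ext
    simp
  map_mul' x y := by
    apply Subtype.ext
    simp
  map_zero' := by
    apply Subtype.ext
    simp
  map_add' x y := by
    apply Subtype.ext
    simp

theorem dsjdIncl_coe (x : 𝓞 K) : ((dsjdIncl K x : DsjZbar) : ℂ) = ((x : K) : ℂ) := rfl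

end

theorem dsj_dvr (𝔪 : Ideal DsjZbar) [𝔪.IsPrime] (ℓ : ℕ) (hℓ : ℓ.Prime)
    (h𝔪 : (ℓ : DsjZbar) ∈ 𝔪) (S : Finset ℂ) (hS : ∀ x ∈ S, IsAlgebraic ℚ x) :
    ∃ (A K : Type) (_ : CommRing A) (_ : IsDomain A) (_ : IsPrincipalIdealRing A) (_ : Field K)
      (_ : Algebra A K) (_ : IsFractionRing A K) (j : K →+* ℂ),
      (∀ x ∈ S, x ∈ j.range) ∧ ∀ a : A, j (algebraMap A K a) ∈ dsjLoc 𝔪 := by
  classical
  let K : IntermediateField ℚ ℂ := IntermediateField.adjoin ℚ (S : Set ℂ)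
  have hfd : FiniteDimensional ℚ K :=
    IntermediateField.finiteDimensional_adjoin (fun x hx => (hS x hx).isIntegral)
  have hnf : NumberField K := { to_charZero := inferInstance, to_finiteDimensional := hfd }
  let 𝔭 : Ideal (𝓞 K) := 𝔪.comap (dsjdIncl K)
  have h𝔭prime : 𝔭.IsPrime := Ideal.comap_isPrime _ _
  have h𝔭ne : 𝔭 ≠ ⊥ := by
    intro h
    have hmem : (ℓ : 𝓞 K) ∈ 𝔭 := by
      show dsjdIncl K (ℓ : 𝓞 K) ∈ 𝔪
      rw [map_natCast]
      exact h𝔪
    rw [h, Ideal.mem_bot] at hmem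
    exact hℓ.ne_zero (Nat.cast_eq_zero.mp hmem)
  have hle : 𝔭.primeCompl ≤ nonZeroDivisors (𝓞 K) := 𝔭.primeCompl_le_nonZeroDivisors
  let A : Subalgebra (𝓞 K) K := Localization.subalgebra.ofField K 𝔭.primeCompl hle
  have hloc : IsLocalization.AtPrime A 𝔭 :=
    Localization.subalgebra.isLocalization_ofField K 𝔭.primeCompl hle
  have hdvr : IsDiscreteValuationRing A :=
    IsLocalization.AtPrime.isDiscreteValuationRing_of_dedekind_domain (𝓞 K) h𝔭ne A
  refine ⟨A, K, inferInstance, inferInstance, inferInstance, inferInstance, inferInstance,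
    inferInstance, algebraMap K ℂ, ?_, ?_⟩
  · intro x hx
    exact ⟨⟨x, IntermediateField.subset_adjoin ℚ _ hx⟩, rfl⟩
  · rintro ⟨a, ha⟩
    obtain ⟨x, s, hs, rfl⟩ : ∃ (x s : 𝓞 K) (_ : s ∈ 𝔭.primeCompl),
        a = algebraMap (𝓞 K) K x * (algebraMap (𝓞 K) K s)⁻¹ := ha
    refine ⟨dsjdIncl K x, dsjdIncl K s, hs, ?_⟩
    have hs0 : (algebraMap (𝓞 K) K s) ≠ 0 := by
      intro h0
      have : s = 0 := (FaithfulSMul.algebraMap_injective (𝓞 K) K) (by rw [h0, map_zero])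
      exact hs (by rw [this]; exact 𝔭.zero_mem)
    rw [dsjdIncl_coe, dsjdIncl_coe]
    show (algebraMap K ℂ) (algebraMap (𝓞 K) K x * (algebraMap (𝓞 K) K s)⁻¹)
      * algebraMap K ℂ (algebraMap (𝓞 K) K s) = algebraMap K ℂ (algebraMap (𝓞 K) K x)
    rw [← map_mul, inv_mul_cancel_right₀ hs0]

end Fermat.Agent.DS
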