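import Mathlib

/-!
# Program DS (S48), package J, row J2b: a finite subgroup of `GL_d(Frac A)`, `A` a PID, is
conjugate into `GL_d(A)`.
-/

set_option autoImplicit false
set_option linter.unusedSectionVars false

namespace Fermat.Agent.DS

open Matrix

section

variable {A K : Type*} [CommRing A] [IsDomain A] [IsPrincipalIdealRing A] [Field K]
    [Algebra A K] [IsFractionRing A K] {G : Type*} [Group G] [Finite G] {d : ℕ}

/-- the `A`-lattice spanned by the orbit of the standard basis. -/
def dsjlLat (ρ : G →* GL (Fin d) K) : Submodule A (Fin d → K) :=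
  Submodule.span A (Set.range fun p : G × Fin d => (ρ p.1).1 *ᵥ (Pi.single p.2 (1 : K)))

theorem dsjl_single_mem (ρ : G →* GL (Fin d) K) (j : Fin d) :
    (Pi.single j (1 : K) : Fin d → K) ∈ dsjlLat (A := A) ρ := by
  refine Submodule.subset_span ⟨(1, j), ?_⟩
  show (ρ 1).1 *ᵥ (Pi.single j (1 : K)) = _
  rw [map_one, Units.val_one, Matrix.one_mulVec]

/-- the `A`-linear map `x ↦ M *ᵥ x`. -/
def dsjlMul (M : Matrix (Fin d) (Fin d) K) : (Fin d → K) →ₗ[A] (Fin d → K) :=
  (Matrix.mulVecLin M).restrictScalars A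

theorem dsjlMul_apply (M : Matrix (Fin d) (Fin d) K) (x : Fin d → K) :
    dsjlMul (A := A) M x = M *ᵥ x := rfl

theorem dsjl_stable (ρ : G →* GL (Fin d) K) (h : G) (x : Fin d → K)
    (hx : x ∈ dsjlLat (A := A) ρ) : dsjlMul (A := A) (ρ h).1 x ∈ dsjlLat (A := A) ρ := by
  induction hx using Submodule.span_induction with
  | mem x hx =>
    obtain ⟨⟨g, j⟩, rfl⟩ := hx
    refine Submodule.subset_span ⟨(h * g, j), ?_⟩
    simp only [dsjlMul_apply, map_mul, Units.val_mul, Matrix.mulVec_mulVec]
  | zero => rw [map_zero]; exact zero_mem _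
  | add x y _ _ hx hy => rw [map_add]; exact add_mem hx hy
  | smul a x _ hx => rw [map_smul]; exact Submodule.smul_mem _ _ hx

/-- the action of `G` on the lattice. -/
def dsjlAct (ρ : G →* GL (Fin d) K) : G →* Module.End A (dsjlLat (A := A) ρ) where
  toFun g := (dsjlMul (A := A) (ρ g).1).restrict (dsjl_stable ρ g)
  map_one' := by
    ext x
    simp [dsjlMul_apply]
  map_mul' g h := by
    ext x
    simp [dsjlMul_apply, Matrix.mulVec_mulVec]

theorem dsjlAct_apply (ρ : G →* GL (Fin d) K) (g : G) (x : dsjlLat (A := A) ρ) :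
    ((dsjlAct ρ g x : dsjlLat (A := A) ρ) : Fin d → K) = (ρ g).1 *ᵥ (x : Fin d → K) := rfl

instance dsjl_finite (ρ : G →* GL (Fin d) K) : Module.Finite A (dsjlLat (A := A) ρ) :=
  Module.Finite.span_of_finite A (Set.finite_range _)


instance dsjl_torsionFree (ρ : G →* GL (Fin d) K) :
    Module.IsTorsionFree A (dsjlLat (A := A) ρ) := by
  have : Module.IsTorsionFree A K := by
    have := IsFractionRing.injective A K
    infer_instance
  infer_instance


/-- **J2b** (the lattice): a finite subgroup of `GL_d(Frac A)`, `A` a PID, is conjugate into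
`GL_d(A)`. -/
theorem dsj_lattice {A K : Type*} [CommRing A] [IsDomain A] [IsPrincipalIdealRing A] [Field K]
    [Algebra A K] [IsFractionRing A K] {G : Type*} [Group G] [Finite G] {d : ℕ}
    (ρ : G →* GL (Fin d) K) :
    ∃ (P : GL (Fin d) K) (ρ' : G →* GL (Fin d) A),
      ∀ g, (ρ' g).1.map (algebraMap A K) = (P⁻¹ * ρ g * P : GL (Fin d) K).1 := by
  classical
  obtain ⟨n, ⟨b⟩⟩ : ∃ n : ℕ, Nonempty (Module.Basis (Fin n) A (dsjlLat (A := A) ρ)) :=
    ⟨_, ⟨Module.finBasis A (dsjlLat (A := A) ρ)⟩⟩
  set v : Fin n → (Fin d → K) := fun i => ((b i : dsjlLat (A := A) ρ) : Fin d → K) with hv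
  have hvA : LinearIndependent A v :=
    b.linearIndependent.map' (dsjlLat (A := A) ρ).subtype (Submodule.ker_subtype _)
  have hvK : LinearIndependent K v := (LinearIndependent.iff_fractionRing A K).mp hvA
  have hL : dsjlLat (A := A) ρ = Submodule.span A (Set.range v) := by
    have h1 := congrArg (Submodule.map (dsjlLat (A := A) ρ).subtype) b.span_eq
    rw [Submodule.map_span, Submodule.map_top, Submodule.range_subtype, ← Set.range_comp] at h1
    exact h1.symm
  have hspan : ⊤ ≤ Submodule.span K (Set.range v) := by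
    intro x _
    have hx : x = ∑ j, x j • (Pi.single j (1 : K) : Fin d → K) := by
      ext i
      simp [Finset.sum_apply, Pi.single_apply]
    rw [hx]
    refine Submodule.sum_mem _ fun j _ => Submodule.smul_mem _ _ ?_
    have h2 : (Pi.single j (1 : K) : Fin d → K) ∈ Submodule.span A (Set.range v) := by
      rw [← hL]; exact dsjl_single_mem ρ j
    exact Submodule.span_le_restrictScalars A K _ h2
  let bK : Module.Basis (Fin n) K (Fin d → K) := Module.Basis.mk hvK hspan
  have hbK : ∀ i, bK i = v i := fun i => by simp [bK]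
  have hn : n = d := by
    have h := Module.finrank_eq_card_basis bK
    simpa using h.symm
  subst hn
  -- the matrices
  let P0 : Matrix (Fin n) (Fin n) K := (Pi.basisFun K (Fin n)).toMatrix bK
  have : Invertible P0 := (Pi.basisFun K (Fin n)).invertibleToMatrix bK
  have hP0 : ∀ i j, P0 i j = v j i := fun i j => by
    simp [P0, Module.Basis.toMatrix_apply, hbK]
  let ρ' : G →* GL (Fin n) A :=
    ((LinearMap.toMatrixAlgEquiv b).toAlgHom.toRingHom.toMonoidHom.comp (dsjlAct ρ)).toHomUnits
  have hρ' : ∀ g, (ρ' g).1 = LinearMap.toMatrix b b (dsjlAct ρ g) := fun g => rfl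
  refine ⟨unitOfInvertible P0, ρ', fun g => ?_⟩
  have hkey : P0 * (ρ' g).1.map (algebraMap A K) = (ρ g).1 * P0 := by
    ext i j
    rw [Matrix.mul_apply, Matrix.mul_apply]
    have h1 : ∑ k, (ρ g).1 i k * P0 k j = ((ρ g).1 *ᵥ v j) i := by
      simp only [Matrix.mulVec, dotProduct, hP0]
    rw [h1]
    have h2 : (ρ g).1 *ᵥ v j = ((dsjlAct ρ g (b j) : dsjlLat (A := A) ρ) : Fin n → K) := rfl
    rw [h2]
    have h3 := b.sum_repr (dsjlAct ρ g (b j))
    have h4 := congrArg (fun y : dsjlLat (A := A) ρ => (y : Fin n → K) i) h3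
    simp only [Submodule.coe_sum, Submodule.coe_smul, Finset.sum_apply, Pi.smul_apply] at h4
    rw [← h4]
    refine Finset.sum_congr rfl fun k _ => ?_
    rw [hP0, Matrix.map_apply, hρ', LinearMap.toMatrix_apply, Algebra.smul_def, mul_comm]
  have : (ρ' g).1.map (algebraMap A K)
      = ((unitOfInvertible P0)⁻¹ : GL (Fin n) K).1 * ((ρ g).1 * P0) := by
    rw [← hkey, ← Matrix.mul_assoc]
    have : ((unitOfInvertible P0)⁻¹ : GL (Fin n) K).1 * P0 = 1 :=
      (unitOfInvertible P0).inv_mul
    rw [this, Matrix.one_mul]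
  rw [this, Units.val_mul, Units.val_mul, Matrix.mul_assoc]
  rfl

end

end Fermat.Agent.DS
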