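import Fermat.Agent.DS.J.Dvr
import Fermat.Agent.DS.J.Lattice

/-!
# Program DS (S48), package J, row J2c: assembly of the integral model from J2a (`dsj_dvr`) and
J2b (`dsj_lattice`).
-/

set_option autoImplicit false

namespace Fermat.Agent.DS

open Matrix

/-- a homomorphism into `GL_d(ℂ)` all of whose entries lie in the range of a field embedding
`j : K → ℂ` descends to `GL_d(K)`. -/
theorem dsji_descend {K : Type*} [Field K] (j : K →+* ℂ) {G : Type*} [Group G] {d : ℕ}
    (ρ : G →* GL (Fin d) ℂ) (h : ∀ g a b, (ρ g).1 a b ∈ j.range) :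
    ∃ ρK : G →* GL (Fin d) K, ∀ g, (ρK g).1.map j = (ρ g).1 := by
  classical
  choose f hf using h
  have hinj : Function.Injective (fun M : Matrix (Fin d) (Fin d) K => M.map j) :=
    Matrix.map_injective j.injective
  let M : G → Matrix (Fin d) (Fin d) K := fun g => Matrix.of fun a b => f g a b
  have hM : ∀ g, (M g).map j = (ρ g).1 := by
    intro g
    ext a b
    simp [M, hf]
  let μ : G →* Matrix (Fin d) (Fin d) K :=
    { toFun := M
      map_one' := by
        apply hinj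
        show (M 1).map j = (1 : Matrix (Fin d) (Fin d) K).map j
        rw [hM, map_one, Matrix.map_one _ (map_zero j) (map_one j)]
        rfl
      map_mul' := by
        intro g h
        apply hinj
        show (M (g * h)).map j = (M g * M h).map j
        rw [Matrix.map_mul, hM, hM, hM, map_mul]
        rfl }
  refine ⟨μ.toHomUnits, fun g => ?_⟩
  rw [MonoidHom.coe_toHomUnits]
  exact hM g

theorem dsj_integral_model (𝔪 : Ideal DsjZbar) [𝔪.IsPrime] (ℓ : ℕ) (hℓ : ℓ.Prime)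
    (h𝔪 : (ℓ : DsjZbar) ∈ 𝔪) {G : Type*} [Group G] [Finite G] {d : ℕ}
    (ρ : G →* GL (Fin d) ℂ) (halg : ∀ g i j, IsAlgebraic ℚ ((ρ g).1 i j)) :
    ∃ ρ' : G →* GL (Fin d) (dsjLoc 𝔪),
      ∀ g, ((ρ' g).1.map (dsjLoc 𝔪).subtype).charpoly = (ρ g).1.charpoly := by
  classical
  have : Fintype G := Fintype.ofFinite G
  let S : Finset ℂ := Finset.univ.image fun x : G × Fin d × Fin d => (ρ x.1).1 x.2.1 x.2.2
  have hS : ∀ x ∈ S, IsAlgebraic ℚ x := by
    intro x hx
    obtain ⟨⟨g, a, b⟩, -, rfl⟩ := Finset.mem_image.mp hx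
    exact halg g a b
  obtain ⟨A, K, _, _, _, _, _, _, j, hj, hA⟩ := dsj_dvr 𝔪 ℓ hℓ h𝔪 S hS
  obtain ⟨ρK, hρK⟩ := dsji_descend j ρ (fun g a b =>
    hj _ (Finset.mem_image.mpr ⟨(g, a, b), Finset.mem_univ _, rfl⟩))
  obtain ⟨P, ρA, hρA⟩ := dsj_lattice (A := A) ρK
  let jA : A →+* dsjLoc 𝔪 := (j.comp (algebraMap A K)).codRestrict (dsjLoc 𝔪) hA
  refine ⟨(Matrix.GeneralLinearGroup.map jA).comp ρA, fun g => ?_⟩
  have h1 : (((Matrix.GeneralLinearGroup.map jA).comp ρA) g).1.map (dsjLoc 𝔪).subtype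
      = ((ρA g).1.map (algebraMap A K)).map j := by
    ext a b
    simp [jA]
  rw [h1, hρA, Matrix.charpoly_map, ← hρK, Matrix.charpoly_map]
  congr 1
  have : (P⁻¹ * ρK g * P : GL (Fin d) K).1 = (P.1)⁻¹ * (ρK g).1 * P.1 := by
    simp [Matrix.coe_units_inv]
  rw [this]
  exact Matrix.charpoly_units_conj' P (ρK g).1

end Fermat.Agent.DS
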