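import Fermat.Agent.DS.J.Defs

/-!
# Program DS (S48), package J, row J4: roots of unity and finite-order matrices
-/

set_option autoImplicit false

namespace Fermat.Agent.DS

open Matrix Polynomial

/-- reduction is injective on roots of unity of order prime to `ℓ`. -/
theorem dsj_rootOfUnity_inj {k : Type*} [Field k] (φ : DsjZbar →+* k) (ℓ : ℕ) [CharP k ℓ]
    (hℓ : ℓ.Prime) {m : ℕ} (hm : 0 < m) (hmℓ : ¬ ℓ ∣ m) (ζ : DsjZbar) (hζ : ζ ^ m = 1)
    (h1 : φ ζ = 1) : ζ = 1 := by
  have hgeo : (ζ - 1) * ∑ i ∈ Finset.range m, ζ ^ i = 0 := by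
    rw [mul_geom_sum, hζ, sub_self]
  rcases mul_eq_zero.mp hgeo with h | h
  · exact sub_eq_zero.mp h
  · exfalso
    have h2 : φ (∑ i ∈ Finset.range m, ζ ^ i) = (m : k) := by
      rw [map_sum]
      simp [h1]
    rw [h, map_zero] at h2
    exact hmℓ ((CharP.cast_eq_zero_iff k ℓ m).mp h2.symm)

/-- eigenvalues of a matrix of finite order are roots of unity. -/
theorem dsj_root_pow_eq_one {K : Type*} [Field K] {d : ℕ} (M : Matrix (Fin d) (Fin d) K) {m : ℕ}
    (hM : M ^ m = 1) {z : K} (hz : IsRoot M.charpoly z) : z ^ m = 1 := by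
  have h1 : z ∈ spectrum K M := Matrix.mem_spectrum_iff_isRoot_charpoly.mpr hz
  have h2 : z ^ m ∈ spectrum K (M ^ m) := spectrum.pow_image_subset M m ⟨z, h1, rfl⟩
  rw [hM] at h2
  rcases isEmpty_or_nonempty (Fin d) with he | hne
  · exfalso
    have : (1 : Matrix (Fin d) (Fin d) K) = 0 := Subsingleton.elim _ _
    rw [spectrum.mem_iff] at h1
    exact h1 (by
      have : Subsingleton (Matrix (Fin d) (Fin d) K) := inferInstance
      exact isUnit_of_subsingleton _)
  · have : Nontrivial (Matrix (Fin d) (Fin d) K) := inferInstance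
    rw [spectrum.one_eq] at h2
    exact h2

theorem dsj_charpoly_integral {d : ℕ} (M : Matrix (Fin d) (Fin d) ℂ) {m : ℕ} (hm : 0 < m)
    (hM : M ^ m = 1) :
    ∃ P : Polynomial DsjZbar, P.map (algebraMap DsjZbar ℂ) = M.charpoly ∧
      ∀ z ∈ P.aroots ℂ, z ^ m = 1 := by
  have hroots : ∀ z ∈ M.charpoly.roots, z ^ m = 1 := by
    intro z hz
    exact dsj_root_pow_eq_one M hM (Polynomial.isRoot_of_mem_roots hz)
  have hint : ∀ z ∈ M.charpoly.roots, z ∈ integralClosure ℤ ℂ := by
    intro z hz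
    refine ⟨X ^ m - 1, monic_X_pow_sub_C 1 hm.ne', ?_⟩
    simp [hroots z hz]
  -- the polynomial
  let R : Multiset DsjZbar := M.charpoly.roots.pmap (fun z hz => (⟨z, hz⟩ : DsjZbar)) hint
  have hR : R.map (algebraMap DsjZbar ℂ) = M.charpoly.roots := by
    show (M.charpoly.roots.pmap (fun z hz => (⟨z, hz⟩ : DsjZbar)) hint).map
      (algebraMap DsjZbar ℂ) = M.charpoly.roots
    rw [Multiset.map_pmap]
    have : ∀ H, Multiset.pmap (fun (a : ℂ) (h : a ∈ integralClosure ℤ ℂ) =>
        (algebraMap DsjZbar ℂ) (⟨a, h⟩ : DsjZbar)) M.charpoly.roots H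
        = Multiset.map id M.charpoly.roots :=
      Multiset.pmap_eq_map (fun a : ℂ => a ∈ integralClosure ℤ ℂ) id M.charpoly.roots
    rw [this, Multiset.map_id]
  refine ⟨(R.map fun a => X - C a).prod, ?_, ?_⟩
  · rw [Polynomial.map_multiset_prod, Multiset.map_map]
    have hsplit : M.charpoly.Splits := IsAlgClosed.splits _
    have := hsplit.eq_prod_roots_of_monic (M.charpoly_monic)
    rw [this]
    conv_rhs => rw [← hR]
    rw [Multiset.map_map]
    congr 1
    apply Multiset.map_congr rfl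
    intro a _
    simp
  · intro z hz
    rw [Polynomial.aroots_def] at hz
    have h1 : ((R.map fun a => X - C a).prod).map (algebraMap DsjZbar ℂ) = M.charpoly := by
      rw [Polynomial.map_multiset_prod, Multiset.map_map]
      have hsplit : M.charpoly.Splits := IsAlgClosed.splits _
      have := hsplit.eq_prod_roots_of_monic (M.charpoly_monic)
      rw [this]
      conv_rhs => rw [← hR]
      rw [Multiset.map_map]
      congr 1
      apply Multiset.map_congr rfl
      intro a _
      simp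
    rw [h1] at hz
    exact hroots z hz

/-- a finite-order matrix, of order invertible in the field, all of whose eigenvalues are `1` is
the identity. -/
theorem dsj_eq_one_of_charpoly_aux {K : Type*} [Field K] {d : ℕ} (M : Matrix (Fin d) (Fin d) K)
    {m : ℕ} (hm : (m : K) ≠ 0) (hM : M ^ m = 1) (h : M.charpoly = (X - 1) ^ d) : M = 1 := by
  set q : K[X] := ∑ i ∈ Finset.range m, X ^ i with hq
  have hq1 : q.eval 1 = (m : K) := by
    simp [hq, Polynomial.eval_finsetSum]
  have hmul : (X - 1) * q = X ^ m - 1 := mul_geom_sum X m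
  -- `q = (X - 1) * s + C m`
  obtain ⟨s, hs⟩ : ∃ s : K[X], q = (X - 1) * s + C (m : K) := by
    refine ⟨q /ₘ (X - C 1), ?_⟩
    have := Polynomial.modByMonic_add_div q (X - C (1 : K))
    rw [Polynomial.modByMonic_X_sub_C_eq_C_eval, hq1, C_1] at this
    rw [C_1, add_comm]
    exact this.symm
  have hcop : IsCoprime ((X - 1 : K[X])) q := by
    refine ⟨-(C (m : K)⁻¹) * s, C (m : K)⁻¹, ?_⟩
    have hC : C (m : K)⁻¹ * C (m : K) = 1 := by
      rw [← C_mul, inv_mul_cancel₀ hm, C_1]
    rw [hs]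
    linear_combination hC
  obtain ⟨a, b, hab⟩ := (hcop.pow_left (m := d))
  have hCH : aeval M ((X - 1 : K[X]) ^ d) = 0 := by
    rw [← h]
    exact Matrix.aeval_self_charpoly M
  have hq0 : aeval M ((X - 1 : K[X]) * q) = 0 := by
    rw [hmul]
    simp [hM]
  have key : aeval M ((X - 1 : K[X])) = 0 := by
    have : (X - 1 : K[X]) = (X - 1) * a * (X - 1) ^ d + b * ((X - 1) * q) := by
      calc (X - 1 : K[X]) = (X - 1) * (a * (X - 1) ^ d + b * q) := by rw [hab, mul_one]
        _ = _ := by ring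
    rw [this, map_add, map_mul, map_mul (aeval M) b, hCH, hq0, mul_zero, mul_zero, add_zero]
  simpa [sub_eq_zero] using key

/-- a finite-order complex matrix all of whose eigenvalues are `1` is the identity. -/
theorem dsj_eq_one_of_charpoly {d : ℕ} (M : Matrix (Fin d) (Fin d) ℂ) {m : ℕ} (hm : 0 < m)
    (hM : M ^ m = 1) (h : M.charpoly = (Polynomial.X - 1) ^ d) : M = 1 :=
  dsj_eq_one_of_charpoly_aux M (Nat.cast_ne_zero.mpr hm.ne') hM h

/-- the same over a field of characteristic `ℓ ∤ m`. -/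
theorem dsj_eq_one_of_charpoly_modl {k : Type*} [Field k] (ℓ : ℕ) [CharP k ℓ] (hℓ : ℓ.Prime)
    {d : ℕ} (M : Matrix (Fin d) (Fin d) k) {m : ℕ} (hm : 0 < m) (hmℓ : ¬ ℓ ∣ m)
    (hM : M ^ m = 1) (h : M.charpoly = (Polynomial.X - 1) ^ d) : M = 1 :=
  dsj_eq_one_of_charpoly_aux M (fun h0 => hmℓ ((CharP.cast_eq_zero_iff k ℓ m).mp h0)) hM h

end Fermat.Agent.DS
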