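import Fermat.Agent.DS.J.Defs

/-!
# Program DS (S48), package J, row J1: the irreducible representations of a finite group over an
algebraically closed field of characteristic zero (Maschke + Wedderburn–Artin from Mathlib), with
the two character relations (orthonormality, regular character).
-/

set_option autoImplicit false

namespace Fermat.Agent.DS

open Matrix

theorem dsjw_stdBasis_repr {F : Type*} [Field F] {m n : Type*} [Fintype m] [Fintype n]
    (M : Matrix m n F) (a : m) (b : n) : (Matrix.stdBasis F m n).repr M (a, b) = M a b := by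
  simp [Matrix.stdBasis]

/-- the trace of left multiplication on a product of matrix algebras. -/
theorem dsjw_trace_mulLeft_pi {F : Type*} [Field F] {r : ℕ} (d : Fin r → ℕ)
    (x : ∀ i, Matrix (Fin (d i)) (Fin (d i)) F) :
    LinearMap.trace F _ (LinearMap.mulLeft F x) = ∑ i, (d i : F) * (x i).trace := by
  classical
  rw [LinearMap.trace_eq_matrix_trace F
    (Pi.basis fun i => Matrix.stdBasis F (Fin (d i)) (Fin (d i)))]
  rw [Matrix.trace, Fintype.sum_sigma]
  apply Finset.sum_congr rfl
  intro i _
  simp only [Matrix.diag_apply, LinearMap.toMatrix_apply, Pi.basis_apply, Pi.basis_repr,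
    LinearMap.mulLeft_apply, Pi.mul_apply, Pi.single_eq_same]
  rw [Fintype.sum_prod_type]
  simp only [Matrix.stdBasis_eq_single]
  have : ∀ a b : Fin (d i), ((stdBasis F (Fin (d i)) (Fin (d i))).repr
      (x i * single a b 1)) (a, b) = x i a a := by
    intro a b
    rw [dsjw_stdBasis_repr]
    simp
  simp only [this]
  simp [Matrix.trace, Finset.mul_sum]

theorem dsjw_basis_repr {F : Type*} [Field F] {G : Type*} (x : MonoidAlgebra F G) (g : G) :
    (MonoidAlgebra.basis G F).repr x g = x.coeff g := rfl

/-- the trace of left multiplication on the group algebra. -/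
theorem dsjw_trace_mulLeft_groupAlgebra {F : Type*} [Field F] {G : Type*} [Group G] [Fintype G]
    [DecidableEq G] (a : MonoidAlgebra F G) :
    LinearMap.trace F (MonoidAlgebra F G) (LinearMap.mulLeft F a)
      = (Fintype.card G : F) * a.coeff 1 := by
  rw [LinearMap.trace_eq_matrix_trace F (MonoidAlgebra.basis G F), Matrix.trace]
  simp only [Matrix.diag_apply, LinearMap.toMatrix_apply, MonoidAlgebra.basis_apply,
    LinearMap.mulLeft_apply, dsjw_basis_repr, MonoidAlgebra.coeff_mul_single_apply,
    mul_inv_cancel, mul_one]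
  simp

/-- transport of the trace of left multiplication along an algebra isomorphism. -/
theorem dsjw_trace_mulLeft_algEquiv {F : Type*} [Field F] {A B : Type*} [Ring A] [Ring B]
    [Algebra F A] [Algebra F B] (e : A ≃ₐ[F] B) (a : A) :
    LinearMap.trace F B (LinearMap.mulLeft F (e a)) = LinearMap.trace F A (LinearMap.mulLeft F a) := by
  have : LinearMap.mulLeft F (e a) = e.toLinearEquiv.conj (LinearMap.mulLeft F a) := by
    ext b
    simp [LinearEquiv.conj_apply]
  rw [this, LinearMap.trace_conj']

section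
variable {F : Type*} [Field F] {G : Type*} [Group G] [Fintype G] [DecidableEq G]
  {r : ℕ} {d : Fin r → ℕ}
  (e : MonoidAlgebra F G ≃ₐ[F] ∀ i, Matrix (Fin (d i)) (Fin (d i)) F)

/-- the master trace formula. -/
theorem dsjw_master (a : MonoidAlgebra F G) :
    (Fintype.card G : F) * a.coeff 1 = ∑ j, (d j : F) * (e a j).trace := by
  rw [← dsjw_trace_mulLeft_groupAlgebra, ← dsjw_trace_mulLeft_algEquiv e, dsjw_trace_mulLeft_pi]

/-- the components of the Wedderburn isomorphism as representations. -/
noncomputable def dsjwRep (i : Fin r) : G →* GL (Fin (d i)) F :=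
  ((Pi.evalMonoidHom (fun i => Matrix (Fin (d i)) (Fin (d i)) F) i).comp
    ((e : MonoidAlgebra F G →* ∀ i, Matrix (Fin (d i)) (Fin (d i)) F).comp
      (MonoidAlgebra.of F G))).toHomUnits

omit [Fintype G] [DecidableEq G] in
theorem dsjwRep_coe (i : Fin r) (g : G) :
    ((dsjwRep e i g : GL (Fin (d i)) F) : Matrix (Fin (d i)) (Fin (d i)) F)
      = e (MonoidAlgebra.single g 1) i := by
  simp [dsjwRep, MonoidHom.coe_toHomUnits]

/-- (R2) -/
theorem dsjw_regular (g : G) :
    ∑ i, (d i : F) * (dsjwRep e i g).1.trace = if g = 1 then (Fintype.card G : F) else 0 := by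
  have := dsjw_master e (MonoidAlgebra.single g 1)
  simp only [← dsjwRep_coe] at this
  rw [← this, MonoidAlgebra.coeff_single, Finsupp.single_apply]
  split_ifs <;> simp

/-- Fourier coefficients of the central idempotents. -/
theorem dsjw_idem_coeff (i : Fin r) (h : G) :
    (Fintype.card G : F) * (e.symm (Pi.single i 1)).coeff h
      = (d i : F) * (dsjwRep e i h⁻¹).1.trace := by
  have := dsjw_master e (e.symm (Pi.single i 1) * MonoidAlgebra.single h⁻¹ 1)
  rw [MonoidAlgebra.coeff_mul_single_apply, inv_inv, one_mul, mul_one] at this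
  rw [this, Finset.sum_eq_single i]
  · rw [map_mul, AlgEquiv.apply_symm_apply, Pi.mul_apply, Pi.single_eq_same, one_mul,
      dsjwRep_coe]
  · intro j _ hj
    rw [map_mul, AlgEquiv.apply_symm_apply, Pi.mul_apply, Pi.single_eq_of_ne hj, zero_mul,
      Matrix.trace_zero, mul_zero]
  · intro hi
    exact absurd (Finset.mem_univ i) hi

omit [DecidableEq G] in
theorem dsjw_idem_sum (i j : Fin r) :
    ∑ h : G, (e.symm (Pi.single i 1)).coeff h * (dsjwRep e j h).1.trace
      = if i = j then (d i : F) else 0 := by
  set c := e.symm (Pi.single i 1) with hc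
  have hdec : c = ∑ h : G, c.coeff h • MonoidAlgebra.single h (1 : F) := by
    conv_lhs => rw [← MonoidAlgebra.sum_coeff_single c]
    rw [Finsupp.sum_fintype _ _ (by simp)]
    apply Finset.sum_congr rfl
    intro h _
    simp
  have h1 : (e c j).trace = ∑ h : G, c.coeff h * (dsjwRep e j h).1.trace := by
    conv_lhs => rw [hdec]
    rw [map_sum, Finset.sum_apply, Matrix.trace_sum]
    apply Finset.sum_congr rfl
    intro h _
    rw [map_smul, Pi.smul_apply, Matrix.trace_smul, dsjwRep_coe, smul_eq_mul]
  rw [← h1, hc, AlgEquiv.apply_symm_apply]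
  split_ifs with hij
  · subst hij
    simp
  · rw [Pi.single_eq_of_ne (Ne.symm hij), Matrix.trace_zero]

/-- (R1), before normalisation. -/
theorem dsjw_orth [CharZero F] (hd : ∀ i, 0 < d i) (i j : Fin r) :
    ∑ h : G, (dsjwRep e i h⁻¹).1.trace * (dsjwRep e j h).1.trace
      = if i = j then (Fintype.card G : F) else 0 := by
  have h1 := dsjw_idem_sum e i j
  have h2 : (Fintype.card G : F) * ∑ h : G, (e.symm (Pi.single i 1)).coeff h *
      (dsjwRep e j h).1.trace = (d i : F) * ∑ h : G, (dsjwRep e i h⁻¹).1.trace *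
        (dsjwRep e j h).1.trace := by
    rw [Finset.mul_sum, Finset.mul_sum]
    apply Finset.sum_congr rfl
    intro h _
    rw [← mul_assoc, dsjw_idem_coeff, mul_assoc]
  rw [h1] at h2
  have hdi : (d i : F) ≠ 0 := Nat.cast_ne_zero.mpr (hd i).ne'
  apply mul_left_cancel₀ hdi
  rw [← h2]
  split_ifs <;> ring

end


theorem dsj_wedderburn (F : Type*) [Field F] [IsAlgClosed F] [CharZero F] (G : Type*) [Group G]
    [Fintype G] [DecidableEq G] :
    ∃ (r : ℕ) (d : Fin r → ℕ) (ρ : ∀ i, G →* GL (Fin (d i)) F),
      (∀ i, 0 < d i) ∧ (∑ i, d i * d i = Nat.card G) ∧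
      (∀ i j, (Nat.card G : F)⁻¹ * ∑ g : G, (ρ i g).1.trace * (ρ j g⁻¹).1.trace
        = if i = j then 1 else 0) ∧
      (∀ g : G, ∑ i, (d i : F) * (ρ i g).1.trace = if g = 1 then (Nat.card G : F) else 0) := by
  have : NeZero (Nat.card G : F) := ⟨Nat.cast_ne_zero.mpr Nat.card_pos.ne'⟩
  obtain ⟨r, d, hd, ⟨e⟩⟩ :=
    IsSemisimpleRing.exists_algEquiv_pi_matrix_of_isAlgClosed F (MonoidAlgebra F G)
  have hd' : ∀ i, 0 < d i := fun i => Nat.pos_of_ne_zero (hd i).out
  have hcard : (Nat.card G : F) ≠ 0 := Nat.cast_ne_zero.mpr Nat.card_pos.ne'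
  refine ⟨r, d, dsjwRep e, hd', ?_, ?_, ?_⟩
  · have h1 := e.toLinearEquiv.finrank_eq
    rw [Module.finrank_eq_card_basis (MonoidAlgebra.basis G F), Module.finrank_pi_fintype] at h1
    simp only [Module.finrank_matrix, Fintype.card_fin, Module.finrank_self, mul_one] at h1
    rw [Nat.card_eq_fintype_card, h1]
  · intro i j
    have h := dsjw_orth e hd' j i
    rw [Nat.card_eq_fintype_card]
    have h' : ∑ g : G, (dsjwRep e i g).1.trace * (dsjwRep e j g⁻¹).1.trace
        = if i = j then (Fintype.card G : F) else 0 := by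
      rw [← (show (if j = i then (Fintype.card G : F) else 0)
        = if i = j then (Fintype.card G : F) else 0 by simp only [eq_comm]), ← h]
      apply Finset.sum_congr rfl
      intro g _
      ring
    rw [h']
    rw [Nat.card_eq_fintype_card] at hcard
    split_ifs
    · exact inv_mul_cancel₀ hcard
    · exact mul_zero _
  · intro g
    rw [Nat.card_eq_fintype_card]
    exact dsjw_regular e g

end Fermat.Agent.DS
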