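import Fermat.Agent.DS.J.Integral
import Fermat.Agent.DS.J.Complete
import Fermat.Agent.DS.J.Wedderburn
import Fermat.Agent.DS.J.Roots

/-!
# Program DS (S48), package J, row J5: the coprime lifting theorem `dsj_lift` (assembly of J1–J4).
-/

set_option autoImplicit false

namespace Fermat.Agent.DS

open Matrix Polynomial

/-- trace and determinant of a complex matrix of finite order are algebraic integers. -/
theorem dsjm_trace_det_integral {n : ℕ} (M : Matrix (Fin n) (Fin n) ℂ) {m : ℕ} (hm : 0 < m)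
    (hM : M ^ m = 1) : IsIntegral ℤ M.trace ∧ IsIntegral ℤ M.det := by
  have hint : ∀ z ∈ M.charpoly.roots, z ∈ integralClosure ℤ ℂ := by
    intro z hz
    have h1 := dsj_root_pow_eq_one M hM (Polynomial.isRoot_of_mem_roots hz)
    refine ⟨X ^ m - 1, monic_X_pow_sub_C 1 hm.ne', ?_⟩
    simp [h1]
  constructor
  · rw [Matrix.trace_eq_sum_roots_charpoly]
    exact Subalgebra.multiset_sum_mem _ hint
  · rw [Matrix.det_eq_prod_roots_charpoly]
    exact Subalgebra.multiset_prod_mem _ hint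

/-- (H): an element of the localisation which is an algebraic integer. -/
theorem dsjm_lift_elt {k : Type*} [Field k] (φ : DsjZbar →+* k) (x : dsjLoc (RingHom.ker φ))
    (hx : IsIntegral ℤ (x : ℂ)) : ∃ t : DsjZbar, (t : ℂ) = x ∧ φ t = dsjLocHom φ x := by
  refine ⟨⟨x, hx⟩, rfl, ?_⟩
  rw [← dsjLocHom_coe φ ⟨x, hx⟩]

theorem dsjm_charpoly_two {R : Type*} [CommRing R] [Nontrivial R] (M : Matrix (Fin 2) (Fin 2) R)
    (ht : M.trace = 2) (hd : M.det = 1) : M.charpoly = (X - 1) ^ 2 := by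
  rw [Matrix.charpoly_fin_two, ht, hd]
  simp only [map_ofNat, map_one]
  ring

/-- (K): the kernel statement follows from the congruences of trace and determinant. -/
theorem dsjm_kernel {G : Type*} [Group G] [Finite G] {k : Type*} [Field k]
    (φ : DsjZbar →+* k) (ℓ : ℕ) (hℓ : ℓ.Prime) [CharP k ℓ] (hG : Nat.card G < ℓ)
    (ρ : G →* GL (Fin 2) ℂ) (ρbar : G →* GL (Fin 2) k)
    (h : ∀ g, ∃ t d : DsjZbar, (t : ℂ) = (ρ g).1.trace ∧ (d : ℂ) = (ρ g).1.det ∧
        φ t = (ρbar g).1.trace ∧ φ d = (ρbar g).1.det) (g : G) :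
    ρ g = 1 ↔ ρbar g = 1 := by
  have hm : 0 < Nat.card G := Nat.card_pos
  have hmℓ : ¬ ℓ ∣ Nat.card G := Nat.not_dvd_of_pos_of_lt hm hG
  have hg : g ^ Nat.card G = 1 := pow_card_eq_one'
  have hpow : (ρ g).1 ^ Nat.card G = 1 := by
    rw [← Units.val_pow_eq_pow_val, ← map_pow, hg, map_one, Units.val_one]
  have hpowb : (ρbar g).1 ^ Nat.card G = 1 := by
    rw [← Units.val_pow_eq_pow_val, ← map_pow, hg, map_one, Units.val_one]
  obtain ⟨t, d, ht, hd, hφt, hφd⟩ := h g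
  constructor
  · intro hρ
    rw [hρ] at ht hd
    have ht2 : t = 2 := by
      apply Subtype.ext
      rw [ht]
      have : ((2 : DsjZbar) : ℂ) = 2 := rfl
      rw [this]
      simp
    have hd1 : d = 1 := by
      apply Subtype.ext
      rw [hd]
      simp
    rw [ht2, map_ofNat] at hφt
    rw [hd1, map_one] at hφd
    have := dsj_eq_one_of_charpoly_modl ℓ hℓ (ρbar g).1 hm hmℓ hpowb
      (dsjm_charpoly_two _ hφt.symm hφd.symm)
    exact Units.ext this
  · intro hρb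
    rw [hρb] at hφt hφd
    have hφt2 : φ t = 2 := by
      rw [hφt]
      simp
    have hφd1 : φ d = 1 := by
      rw [hφd]
      simp
    -- the two eigenvalues
    have hchar : (ρ g).1.charpoly = X ^ 2 - C (t : ℂ) * X + C (d : ℂ) := by
      rw [Matrix.charpoly_fin_two, ht, hd]
    have hdeg : (ρ g).1.charpoly.degree ≠ 0 := by
      rw [Matrix.charpoly_degree_eq_dim]
      simp
    obtain ⟨α, hα⟩ := IsAlgClosed.exists_root _ hdeg
    have hα' : α ^ 2 - (t : ℂ) * α + (d : ℂ) = 0 := by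
      have := hα
      rw [hchar] at this
      simpa using this
    set β : ℂ := (t : ℂ) - α with hβdef
    have hβ : IsRoot (ρ g).1.charpoly β := by
      rw [hchar]
      simp only [IsRoot.def, eval_add, eval_sub, eval_pow, eval_X, eval_mul, eval_C]
      rw [hβdef]
      linear_combination hα'
    have hαm := dsj_root_pow_eq_one (ρ g).1 hpow hα
    have hβm := dsj_root_pow_eq_one (ρ g).1 hpow hβ
    have hαint : α ∈ integralClosure ℤ ℂ :=
      ⟨X ^ Nat.card G - 1, monic_X_pow_sub_C 1 hm.ne', by simp [hαm]⟩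
    have hβint : β ∈ integralClosure ℤ ℂ :=
      ⟨X ^ Nat.card G - 1, monic_X_pow_sub_C 1 hm.ne', by simp [hβm]⟩
    set α' : DsjZbar := ⟨α, hαint⟩ with hα'def
    set β' : DsjZbar := ⟨β, hβint⟩ with hβ'def
    have hα'm : α' ^ Nat.card G = 1 := Subtype.ext (by simpa using hαm)
    have hβ'm : β' ^ Nat.card G = 1 := Subtype.ext (by simpa using hβm)
    have hsum : α' + β' = t := Subtype.ext (by
      show α + β = (t : ℂ)
      rw [hβdef]; ring)
    have hprod : α' * β' = d := Subtype.ext (by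
      show α * β = (d : ℂ)
      rw [hβdef]; linear_combination -hα')
    have h1 : φ α' + φ β' = 2 := by rw [← map_add, hsum, hφt2]
    have h2 : φ α' * φ β' = 1 := by rw [← map_mul, hprod, hφd1]
    have h3 : (φ α' - 1) ^ 2 = 0 := by
      linear_combination (φ α') * h1 - h2
    have h4 : φ α' = 1 := sub_eq_zero.mp (pow_eq_zero_iff (two_ne_zero)|>.mp h3)
    have h5 : φ β' = 1 := by
      rw [h4] at h1
      linear_combination h1
    have hα1 := dsj_rootOfUnity_inj φ ℓ hℓ hm hmℓ α' hα'm h4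
    have hβ1 := dsj_rootOfUnity_inj φ ℓ hℓ hm hmℓ β' hβ'm h5
    have ht2 : (ρ g).1.trace = 2 := by
      rw [← ht, ← hsum, hα1, hβ1]
      push_cast
      norm_num
    have hd1 : (ρ g).1.det = 1 := by
      rw [← hd, ← hprod, hα1, hβ1]
      simp
    have := dsj_eq_one_of_charpoly (ρ g).1 hm hpow (dsjm_charpoly_two _ ht2 hd1)
    exact Units.ext this

theorem dsjm_caseA {G : Type*} [Group G] {n : ℕ} (hn : n = 2) (ρn : G →* GL (Fin n) ℂ) :
    ∃ ρ : G →* GL (Fin 2) ℂ,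
      ∀ g, (ρ g).1.trace = (ρn g).1.trace ∧ (ρ g).1.det = (ρn g).1.det := by
  subst hn
  exact ⟨ρn, fun g => ⟨rfl, rfl⟩⟩

theorem dsjm_caseB {G : Type*} [Group G] {n₁ n₂ : ℕ} (h₁ : n₁ = 1) (h₂ : n₂ = 1)
    (ρ₁ : G →* GL (Fin n₁) ℂ) (ρ₂ : G →* GL (Fin n₂) ℂ) :
    ∃ ρ : G →* GL (Fin 2) ℂ, ∀ g, (ρ g).1.trace = (ρ₁ g).1.trace + (ρ₂ g).1.trace ∧
      (ρ g).1.det = (ρ₁ g).1.trace * (ρ₂ g).1.trace := by
  subst h₁ h₂
  let a : G →* ℂˣ := Matrix.GeneralLinearGroup.det.comp ρ₁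
  let b : G →* ℂˣ := Matrix.GeneralLinearGroup.det.comp ρ₂
  have ha : ∀ g, ((a g : ℂˣ) : ℂ) = (ρ₁ g).1.trace := by
    intro g
    simp [a, Matrix.trace_fin_one]
  have hb : ∀ g, ((b g : ℂˣ) : ℂ) = (ρ₂ g).1.trace := by
    intro g
    simp [b, Matrix.trace_fin_one]
  let μ : G →* Matrix (Fin 2) (Fin 2) ℂ :=
    { toFun := fun g => Matrix.diagonal ![((a g : ℂˣ) : ℂ), ((b g : ℂˣ) : ℂ)]
      map_one' := by
        ext i j
        fin_cases i <;> fin_cases j <;> simp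
      map_mul' := by
        intro g h
        rw [Matrix.diagonal_mul_diagonal]
        congr 1
        ext i
        fin_cases i <;> simp }
  refine ⟨μ.toHomUnits, fun g => ?_⟩
  rw [MonoidHom.coe_toHomUnits]
  constructor
  · show (Matrix.diagonal ![((a g : ℂˣ) : ℂ), ((b g : ℂˣ) : ℂ)]).trace = _
    rw [Matrix.trace_diagonal, Fin.sum_univ_two, ← ha, ← hb]
    simp
  · show (Matrix.diagonal ![((a g : ℂˣ) : ℂ), ((b g : ℂˣ) : ℂ)]).det = _
    rw [Matrix.det_diagonal, Fin.prod_univ_two, ← ha, ← hb]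
    simp

theorem dsjm_trace_det_eq_of_charpoly {R : Type*} [CommRing R] {n : ℕ} (hn : 0 < n)
    (A B : Matrix (Fin n) (Fin n) R) (h : A.charpoly = B.charpoly) :
    A.trace = B.trace ∧ A.det = B.det := by
  have : Nonempty (Fin n) := ⟨⟨0, hn⟩⟩
  constructor
  · rw [Matrix.trace_eq_neg_charpoly_coeff, Matrix.trace_eq_neg_charpoly_coeff, h]
  · rw [Matrix.det_eq_sign_charpoly_coeff, Matrix.det_eq_sign_charpoly_coeff, h]

/-- the data produced by J1 + J2: representations over `O = dsjLoc (ker φ)` whose traces satisfy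
(R1), (R2) in `ℂ`. -/
theorem dsjm_models {G : Type*} [Group G] [Fintype G] [DecidableEq G] {k : Type*} [Field k]
    (φ : DsjZbar →+* k) (ℓ : ℕ) (hℓ : ℓ.Prime) [CharP k ℓ] :
    ∃ (r : ℕ) (d : Fin r → ℕ) (ρC : ∀ i, G →* GL (Fin (d i)) ℂ)
      (ρO : ∀ i, G →* GL (Fin (d i)) (dsjLoc (RingHom.ker φ))),
      (∀ i, 0 < d i) ∧ (∑ i, d i * d i = Nat.card G) ∧
      (∀ i g, (((ρO i g).1.trace : dsjLoc (RingHom.ker φ)) : ℂ) = (ρC i g).1.trace) ∧
      (∀ i g, (((ρO i g).1.det : dsjLoc (RingHom.ker φ)) : ℂ) = (ρC i g).1.det) ∧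
      (∀ i j, ∑ g : G, (ρC i g).1.trace * (ρC j g⁻¹).1.trace
        = if i = j then (Nat.card G : ℂ) else 0) ∧
      (∀ g : G, ∑ i, (d i : ℂ) * (ρC i g).1.trace = if g = 1 then (Nat.card G : ℂ) else 0) := by
  obtain ⟨r, d, ρF, hd, hsum, horth, hreg⟩ := dsj_wedderburn (AlgebraicClosure ℚ) G
  have : Algebra.IsAlgebraic ℚ (AlgebraicClosure ℚ) := AlgebraicClosure.isAlgebraic ℚ
  let ι : AlgebraicClosure ℚ →+* ℂ :=
    (IsAlgClosed.lift : AlgebraicClosure ℚ →ₐ[ℚ] ℂ).toRingHom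
  let ρC : ∀ i, G →* GL (Fin (d i)) ℂ := fun i => (Matrix.GeneralLinearGroup.map ι).comp (ρF i)
  have halg : ∀ i g a b, IsAlgebraic ℚ ((ρC i g).1 a b) := by
    intro i g a b
    have h1 : IsAlgebraic ℚ ((ρF i g).1 a b) := Algebra.IsAlgebraic.isAlgebraic _
    exact h1.algHom (IsAlgClosed.lift : AlgebraicClosure ℚ →ₐ[ℚ] ℂ)
  have h𝔪 : (ℓ : DsjZbar) ∈ RingHom.ker φ := by
    rw [RingHom.mem_ker, map_natCast]
    exact CharP.cast_eq_zero k ℓ
  choose ρO hρO using fun i => dsj_integral_model (RingHom.ker φ) ℓ hℓ h𝔪 (ρC i) (halg i)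
  have htrC : ∀ i g, (ρC i g).1.trace = ι (ρF i g).1.trace := by
    intro i g
    rw [AddMonoidHom.map_trace]
    rfl
  have hcardF : (Nat.card G : AlgebraicClosure ℚ) ≠ 0 := Nat.cast_ne_zero.mpr Nat.card_pos.ne'
  refine ⟨r, d, ρC, ρO, hd, hsum, ?_, ?_, ?_, ?_⟩
  · intro i g
    rw [← (dsjm_trace_det_eq_of_charpoly (hd i) _ _ (hρO i g)).1]
    exact AddMonoidHom.map_trace (dsjLoc (RingHom.ker φ)).subtype _
  · intro i g
    rw [← (dsjm_trace_det_eq_of_charpoly (hd i) _ _ (hρO i g)).2]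
    exact RingHom.map_det (dsjLoc (RingHom.ker φ)).subtype _
  · intro i j
    have h := horth i j
    have h' : ∑ g : G, (ρF i g).1.trace * (ρF j g⁻¹).1.trace
        = if i = j then (Nat.card G : AlgebraicClosure ℚ) else 0 := by
      have := congrArg (fun x => (Nat.card G : AlgebraicClosure ℚ) * x) h
      simp only [← mul_assoc, mul_inv_cancel₀ hcardF, one_mul] at this
      rw [this]
      split_ifs <;> simp
    have := congrArg ι h'
    rw [map_sum] at this
    simp only [map_mul, ← htrC] at this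
    rw [this]
    split_ifs <;> simp
  · intro g
    have := congrArg ι (hreg g)
    rw [map_sum] at this
    simp only [map_mul, ← htrC, map_natCast] at this
    rw [this]
    split_ifs <;> simp

/-- **Coprime lifting.**  `k` is ANY field of characteristic `ℓ`, `|G| < ℓ`. -/
theorem dsj_lift {G : Type*} [Group G] [Finite G] {k : Type*} [Field k]
    (φ : DsjZbar →+* k) (ℓ : ℕ) (hℓ : ℓ.Prime) [CharP k ℓ] (hG : Nat.card G < ℓ) (h2 : 2 < ℓ)
    (ρbar : G →* GL (Fin 2) k) :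
    ∃ ρ : G →* GL (Fin 2) ℂ,
      (∀ g, ∃ t d : DsjZbar, (t : ℂ) = (ρ g).1.trace ∧ (d : ℂ) = (ρ g).1.det ∧
        φ t = (ρbar g).1.trace ∧ φ d = (ρbar g).1.det) ∧
      (∀ g, ρ g = 1 ↔ ρbar g = 1) := by
  classical
  have : Fintype G := Fintype.ofFinite G
  suffices h : ∃ ρ : G →* GL (Fin 2) ℂ, ∀ g, ∃ t d : DsjZbar, (t : ℂ) = (ρ g).1.trace ∧
      (d : ℂ) = (ρ g).1.det ∧ φ t = (ρbar g).1.trace ∧ φ d = (ρbar g).1.det by
    obtain ⟨ρ, hρ⟩ := h
    exact ⟨ρ, hρ, dsjm_kernel φ ℓ hℓ hG ρ ρbar hρ⟩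
  obtain ⟨r, d, ρC, ρO, hd, hsum, htr, hdet, horth, hreg⟩ := dsjm_models (G := G) φ ℓ hℓ
  let σ : ∀ i, G →* GL (Fin (d i)) k := fun i => (Matrix.GeneralLinearGroup.map (dsjLocHom φ)).comp (ρO i)
  have htrσ : ∀ i g, (σ i g).1.trace = dsjLocHom φ (ρO i g).1.trace := by
    intro i g
    rw [AddMonoidHom.map_trace]
    rfl
  have hdetσ : ∀ i g, (σ i g).1.det = dsjLocHom φ (ρO i g).1.det := by
    intro i g
    rw [RingHom.map_det]
    rfl
  have hcardk : (Nat.card G : k) ≠ 0 := by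
    intro h0
    have := (CharP.cast_eq_zero_iff k ℓ (Nat.card G)).mp h0
    exact Nat.not_dvd_of_pos_of_lt Nat.card_pos hG this
  -- (R1) in `O`, then in `k`
  have horthO : ∀ i j, ∑ g : G, (ρO i g).1.trace * (ρO j g⁻¹).1.trace
      = if i = j then (Nat.card G : dsjLoc (RingHom.ker φ)) else 0 := by
    intro i j
    apply Subtype.ext
    have := horth i j
    simp only [← htr] at this
    push_cast
    rw [this]
    split_ifs <;> simp
  have horthk : ∀ i j, (Nat.card G : k)⁻¹ * ∑ g : G, (σ i g).1.trace * (σ j g⁻¹).1.trace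
      = if i = j then 1 else 0 := by
    intro i j
    have := congrArg (dsjLocHom φ) (horthO i j)
    rw [map_sum] at this
    simp only [map_mul, ← htrσ] at this
    rw [this]
    split_ifs
    · rw [map_natCast, inv_mul_cancel₀ hcardk]
    · rw [map_zero, mul_zero]
  have hregO : ∀ g : G, ∑ i, (d i : dsjLoc (RingHom.ker φ)) * (ρO i g).1.trace
      = if g = 1 then (Nat.card G : dsjLoc (RingHom.ker φ)) else 0 := by
    intro g
    apply Subtype.ext
    have := hreg g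
    simp only [← htr] at this
    push_cast
    rw [this]
    split_ifs <;> simp
  have hregk : ∀ g : G, ∑ i, (d i : k) * (σ i g).1.trace
      = if g = 1 then (Nat.card G : k) else 0 := by
    intro g
    have := congrArg (dsjLocHom φ) (hregO g)
    rw [map_sum] at this
    simp only [map_mul, ← htrσ, map_natCast] at this
    rw [this]
    split_ifs <;> simp
  -- finite order
  have hfin : ∀ (ρ : G →* GL (Fin 2) ℂ) (g : G), (ρ g).1 ^ Nat.card G = 1 := by
    intro ρ g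
    rw [← Units.val_pow_eq_pow_val, ← map_pow, pow_card_eq_one', map_one, Units.val_one]
  rcases dsj_complete ℓ hG h2 σ hd hsum horthk hregk ρbar with
    ⟨i, hi, hA⟩ | ⟨i, j, hi, hj, hB⟩
  · obtain ⟨ρ, hρ⟩ := dsjm_caseA hi (ρC i)
    refine ⟨ρ, fun g => ?_⟩
    have hint := dsjm_trace_det_integral (ρ g).1 Nat.card_pos (hfin ρ g)
    obtain ⟨t, ht, hφt⟩ := dsjm_lift_elt φ (ρO i g).1.trace (by
      rw [htr, ← (hρ g).1]; exact hint.1)
    obtain ⟨dd, hdd, hφd⟩ := dsjm_lift_elt φ (ρO i g).1.det (by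
      rw [hdet, ← (hρ g).2]; exact hint.2)
    refine ⟨t, dd, ?_, ?_, ?_, ?_⟩
    · rw [ht, htr, (hρ g).1]
    · rw [hdd, hdet, (hρ g).2]
    · rw [hφt, (hA g).1, htrσ]
    · rw [hφd, (hA g).2, hdetσ]
  · obtain ⟨ρ, hρ⟩ := dsjm_caseB hi hj (ρC i) (ρC j)
    refine ⟨ρ, fun g => ?_⟩
    have hint := dsjm_trace_det_integral (ρ g).1 Nat.card_pos (hfin ρ g)
    obtain ⟨t, ht, hφt⟩ := dsjm_lift_elt φ ((ρO i g).1.trace + (ρO j g).1.trace) (by
      push_cast
      rw [htr, htr, ← (hρ g).1]; exact hint.1)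
    obtain ⟨dd, hdd, hφd⟩ := dsjm_lift_elt φ ((ρO i g).1.trace * (ρO j g).1.trace) (by
      push_cast
      rw [htr, htr, ← (hρ g).2]; exact hint.2)
    refine ⟨t, dd, ?_, ?_, ?_, ?_⟩
    · rw [ht]; push_cast; rw [htr, htr, (hρ g).1]
    · rw [hdd]; push_cast; rw [htr, htr, (hρ g).2]
    · rw [hφt, (hB g).1, htrσ, htrσ, map_add]
    · rw [hφd, (hB g).2, htrσ, htrσ, map_mul]

end Fermat.Agent.DS
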